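import Mathlib
import Fermat.Agent.S24.ModGlobal
import Fermat.Agent.S24.Ker
import Fermat.Agent.S24.LocalSum
import Fermat.Agent.S24.Algebraic
import Fermat.Agent.S24.H79.Fib
import Fermat.Agent.S20.H77.Index

/-!
# S18 (bridge leaf B6, part 1): `[F_N : ℚ̄(j)] = ψ(N)`

`F_N = modularFunctionFieldBar N` is the function field of `X₀(N)` over `ℚ̄` and `j = jgen N`.
The landed S24 closure provides, for the base function `j`, the local data at the centre `0`
(`exists_modularGlobalData`): the sum of the orders of `j` over the places where `j` vanishes is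
the number of sheets `#(SL₂(ℤ)/Γ₀(N))` (`LocalData.sum_ord_π`).  The fundamental identity
(`S24.H79.exists_finset_ord_pos_adjoin`) says that the same sum is `[F_N : ℚ̄(j)]`.  Hence

* `finrank_adjoin_eq_card`   : generic form, for any `LocalData`;
* `finiteDimensional_jgen`   : `F_N / ℚ̄(j)` is finite;
* `finrank_jgen`             : `[F_N : ℚ̄(j)] = dedekindPsi N`.
-/

set_option autoImplicit false

open AlgebraicCurve IntermediateField ModularCurve

noncomputable section

namespace Fermat.Agent.S18.H55

open Fermat.Agent.S24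

section Generic

variable {K F X : Type*} [Field K] [Field F] [Algebra K F] [Fintype X]
  {R : Subalgebra K F} {π : F}

/-- The base function of a `LocalData` is transcendental over the constants. -/
theorem transcendental_of_localData [Nonempty X] (L : LocalData K F X R π) :
    Transcendental K π := by
  rintro ⟨p, hp, hp0⟩
  obtain ⟨x⟩ := ‹Nonempty X›
  exact (L.order_aeval x hp).1 (by rw [hp0, map_zero])

/-- The degree of `F` over `K(π)` is the number of sheets of a `LocalData` for `π`. -/
theorem finrank_adjoin_eq_card [IsAlgClosed K] [CharZero K] [Nonempty X]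
    (L : LocalData K F X R π) (hR : ∀ f : F, ∃ a ∈ R, ∃ b ∈ R, b ≠ 0 ∧ f = a / b)
    [FiniteDimensional K⟮π⟯ F] :
    Module.finrank K⟮π⟯ F = Fintype.card X := by
  obtain ⟨s, hs, hsum⟩ := H79.exists_finset_ord_pos_adjoin π (transcendental_of_localData L)
  have h1 := L.sum_ord_π hR
  have hs' : s = (L.finite_places hR).toFinset := by
    ext v
    rw [hs, Set.Finite.mem_toFinset, Set.mem_ofPred_eq]
  rw [hs', h1] at hsum
  exact_mod_cast hsum.symm

end Generic

section Modular

variable (N : ℕ) [NeZero N]

/-- `F_N` is algebraic over `ℚ̄(j)`. -/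
theorem isAlgebraic_jgen : Algebra.IsAlgebraic Kbar⟮jgen N⟯ (FF N) := by
  classical
  let _ : Fintype (XX N) := Fintype.ofFinite _
  obtain ⟨G, -, -⟩ := exists_modularGlobalData N
  have hj0 : jgen N - algebraMap Kbar (FF N) 0 = jgen N := by simp
  have halg0 : Algebra.IsAlgebraic
      (IntermediateField.adjoin Kbar {jgen N - algebraMap Kbar (FF N) 0}) (FF N) :=
    (G.fin 0).isAlgebraic G.frac
  exact hj0 ▸ halg0

/-- `F_N` is generated over `ℚ̄(j)` by the finitely many `j_d`, `d ∣ N`. -/
theorem adjoin_range_jF_eq_top :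
    IntermediateField.adjoin Kbar⟮jgen N⟯ (Set.range (jF N)) = ⊤ := by
  rw [eq_top_iff]
  intro f _
  have key : ∀ P : MvPolynomial (N.divisors) Kbar,
      evF N P ∈ IntermediateField.adjoin Kbar⟮jgen N⟯ (Set.range (jF N)) := by
    intro P
    induction P using MvPolynomial.induction_on with
    | C a =>
      have h : evF N (MvPolynomial.C a)
          = algebraMap Kbar⟮jgen N⟯ (FF N) (algebraMap Kbar Kbar⟮jgen N⟯ a) := by
        rw [evF, MvPolynomial.aeval_C, ← IsScalarTower.algebraMap_apply]
      rw [h]
      exact IntermediateField.algebraMap_mem _ _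
    | add p q hp hq =>
      rw [map_add]
      exact add_mem hp hq
    | mul_X p d hp =>
      rw [map_mul]
      refine mul_mem hp ?_
      rw [evF, MvPolynomial.aeval_X]
      exact IntermediateField.subset_adjoin _ _ ⟨d, rfl⟩
  obtain ⟨P, Q, -, rfl⟩ := evF_frac N f
  exact div_mem (key P) (key Q)

/-- `F_N / ℚ̄(j)` is a finite extension. -/
theorem finiteDimensional_jgen : FiniteDimensional Kbar⟮jgen N⟯ (FF N) := by
  have halg := isAlgebraic_jgen N
  have hfin : FiniteDimensional Kbar⟮jgen N⟯
      (IntermediateField.adjoin Kbar⟮jgen N⟯ (Set.range (jF N))) :=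
    IntermediateField.finiteDimensional_adjoin (fun x _ => (halg.isAlgebraic x).isIntegral)
  rw [adjoin_range_jF_eq_top] at hfin
  exact Module.Finite.equiv
    (IntermediateField.topEquiv (F := Kbar⟮jgen N⟯) (E := FF N)).toLinearEquiv

/-- `[F_N : ℚ̄(j)] = #(SL₂(ℤ)/Γ₀(N))`. -/
theorem finrank_jgen_eq_card : Module.finrank Kbar⟮jgen N⟯ (FF N) = Nat.card (XX N) := by
  classical
  let _ : Fintype (XX N) := Fintype.ofFinite _
  obtain ⟨G, -, -⟩ := exists_modularGlobalData N
  have hj0 : jgen N - algebraMap Kbar (FF N) 0 = jgen N := by simp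
  have L : LocalData Kbar (FF N) (XX N) G.R (jgen N) :=
    cast (congrArg (fun y => LocalData Kbar (FF N) (XX N) G.R y) hj0) (G.fin 0)
  have := finiteDimensional_jgen N
  rw [finrank_adjoin_eq_card L G.frac, Nat.card_eq_fintype_card]

/-- **The degree of `X₀(N) → X(1)`**: `[F_N : ℚ̄(j)] = ψ(N)`. -/
theorem finrank_jgen : Module.finrank Kbar⟮jgen N⟯ (FF N) = dedekindPsi N := by
  rw [finrank_jgen_eq_card, ← Fermat.Agent.S20.H77.index_Gamma0 N]
  rfl

end Modular

end Fermat.Agent.S18.H55
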