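import Mathlib
import Fermat.Agent.S18.H55.DegJ

/-!
# S18 (bridge leaf B6): the index `[F_{N'} : F_N]` for `N ∣ N'`

`F_N = modularFunctionFieldBar N ⊆ ℚ̄((q))`.  For `N ∣ N'`:

* `modularFunctionFieldBar_mono` : `F_N ≤ F_{N'}`;
* `relfinrank_bar_mul`           : `[F_{N'} : F_N] * ψ(N) = ψ(N')` (as `relfinrank`);
* `finrank_bar_mul`              : the same for `Module.finrank (F_N) (F_{N'})` with the algebra
  structure `(IntermediateField.inclusion hle).toRingHom.toAlgebra` (the `algFN` of the skeleton);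
* `finite_bar`                   : `F_{N'} / F_N` is finite;
* `index_facts`                  : the shape used by `exists_setup`: for a prime `ℓ ∤ N` and
  `N' := N` (`ℓ ≥ 5`), `lcm N 2` (`ℓ = 3`), `lcm N 3` (`ℓ = 2`), the degree `[F_{N'} : F_N]`
  is prime to every `m` with `ℓ ∤ m`, and `ℓ ∤ N'`.
-/

set_option autoImplicit false

open AlgebraicCurve IntermediateField ModularCurve

noncomputable section

namespace Fermat.Agent.S18.H55

open Fermat.Agent.S24

/-! ### Generic field theory -/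

section Generic

variable {K E : Type*} [Field K] [Field E] [Algebra K E]

/-- For intermediate fields `A ≤ B`, the degree of `B` over `A` for the algebra structure given by
the inclusion is the relative degree. -/
theorem finrank_inclusion_eq_relfinrank {A B : IntermediateField K E} (h : A ≤ B) :
    letI := (IntermediateField.inclusion h).toRingHom.toAlgebra
    Module.finrank ↥A ↥B = IntermediateField.relfinrank A B := by
  let _ := (IntermediateField.inclusion h).toRingHom.toAlgebra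
  rw [IntermediateField.relfinrank_eq_finrank_of_le h]
  refine LinearEquiv.finrank_eq ?_
  exact
    { toFun := fun x => ⟨x.1, x.2⟩
      invFun := fun x => ⟨x.1, x.2⟩
      map_add' := fun _ _ => rfl
      map_smul' := fun _ _ => rfl
      left_inv := fun _ => rfl
      right_inv := fun _ => rfl }

end Generic

/-! ### The tower `ℚ̄(j) ≤ F_N ≤ F_{N'}` -/

/-- Monotonicity of the base change of a field of Laurent series. -/
theorem laurentBaseChange_mono (L : Type*) [Field L] [Algebra ℚ L]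
    {F₀ F₁ : IntermediateField ℚ (LaurentSeries ℚ)} (h : F₀ ≤ F₁) :
    laurentBaseChange L F₀ ≤ laurentBaseChange L F₁ := by
  rw [laurentBaseChange, IntermediateField.adjoin_le_iff]
  rintro _ ⟨y, hy, rfl⟩
  exact coeffEmb_mem_laurentBaseChange L (h hy)

/-- `F_N ≤ F_{N'}` for `N ∣ N'`. -/
theorem modularFunctionFieldBar_mono {N N' : ℕ} [NeZero N] [NeZero N'] (h : N ∣ N') :
    modularFunctionFieldBar N ≤ modularFunctionFieldBar N' :=
  laurentBaseChange_mono _ (full_degeneracy_le h)

/-- The Laurent series `j` does not depend on the level. -/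
theorem coe_jgen_eq (N N' : ℕ) [NeZero N] [NeZero N'] :
    ((jgen N : FF N) : LaurentSeries Kbar) = ((jgen N' : FF N') : LaurentSeries Kbar) := rfl

/-- `[F_N : ℚ̄(j)] = ψ(N)`, as a relative degree inside `ℚ̄((q))`. -/
theorem relfinrank_adjoin_jgen (N : ℕ) [NeZero N] :
    IntermediateField.relfinrank Kbar⟮((jgen N : FF N) : LaurentSeries Kbar)⟯
      (modularFunctionFieldBar N) = dedekindPsi N := by
  have h := IntermediateField.relfinrank_map_map Kbar⟮jgen N⟯
    (⊤ : IntermediateField Kbar (FF N)) (modularFunctionFieldBar N).val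
  rw [IntermediateField.adjoin_map, Set.image_singleton, ← AlgHom.fieldRange_eq_map,
    IntermediateField.fieldRange_val, IntermediateField.relfinrank_top_right, finrank_jgen] at h
  exact h

/-- `[F_{N'} : F_N] * ψ(N) = ψ(N')` for `N ∣ N'`. -/
theorem relfinrank_bar_mul {N N' : ℕ} [NeZero N] [NeZero N'] (h : N ∣ N') :
    IntermediateField.relfinrank (modularFunctionFieldBar N) (modularFunctionFieldBar N')
      * dedekindPsi N = dedekindPsi N' := by
  have hle := modularFunctionFieldBar_mono h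
  have hA : Kbar⟮((jgen N : FF N) : LaurentSeries Kbar)⟯ ≤ modularFunctionFieldBar N := by
    rw [IntermediateField.adjoin_simple_le_iff]
    exact (jgen N).2
  have h1 := IntermediateField.relfinrank_mul_relfinrank hA hle
  rw [relfinrank_adjoin_jgen N, coe_jgen_eq N N', relfinrank_adjoin_jgen N'] at h1
  rw [mul_comm]
  exact h1

/-- `[F_{N'} : F_N] * ψ(N) = ψ(N')` for the algebra structure given by the inclusion. -/
theorem finrank_bar_mul {N N' : ℕ} [NeZero N] [NeZero N'] (h : N ∣ N')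
    (hle : modularFunctionFieldBar N ≤ modularFunctionFieldBar N') :
    letI := (IntermediateField.inclusion hle).toRingHom.toAlgebra
    Module.finrank ↥(modularFunctionFieldBar N) ↥(modularFunctionFieldBar N') * dedekindPsi N
      = dedekindPsi N' := by
  rw [finrank_inclusion_eq_relfinrank hle]
  exact relfinrank_bar_mul h

theorem dedekindPsi_pos' (N : ℕ) [NeZero N] : 0 < dedekindPsi N := by
  rw [← finrank_jgen N]
  have := finiteDimensional_jgen N
  exact Module.finrank_pos

/-- `F_{N'} / F_N` is finite for `N ∣ N'`. -/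
theorem finite_bar {N N' : ℕ} [NeZero N] [NeZero N'] (h : N ∣ N')
    (hle : modularFunctionFieldBar N ≤ modularFunctionFieldBar N') :
    letI := (IntermediateField.inclusion hle).toRingHom.toAlgebra
    Module.Finite ↥(modularFunctionFieldBar N) ↥(modularFunctionFieldBar N') := by
  let _ := (IntermediateField.inclusion hle).toRingHom.toAlgebra
  have h1 := finrank_bar_mul h hle
  have h2 := dedekindPsi_pos' N'
  refine Module.finite_of_finrank_pos (Nat.pos_of_ne_zero fun h0 => ?_)
  rw [h0, zero_mul] at h1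
  omega

/-- If `ψ(N') = d * ψ(N)` then `[F_{N'} : F_N] = d`. -/
theorem finrank_bar_eq_of_psi {N N' : ℕ} [NeZero N] [NeZero N'] (h : N ∣ N')
    (hle : modularFunctionFieldBar N ≤ modularFunctionFieldBar N') {d : ℕ}
    (hd : dedekindPsi N' = d * dedekindPsi N) :
    letI := (IntermediateField.inclusion hle).toRingHom.toAlgebra
    Module.finrank ↥(modularFunctionFieldBar N) ↥(modularFunctionFieldBar N') = d := by
  have h1 := finrank_bar_mul h hle
  rw [hd] at h1
  exact Nat.eq_of_mul_eq_mul_right (dedekindPsi_pos' N) h1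

/-- `[F_{Np} : F_N] = p + 1` for a prime `p ∤ N`. -/
theorem finrank_bar_mul_prime {N p : ℕ} [NeZero N] [NeZero (N * p)] (hp : p.Prime)
    (hpN : ¬ p ∣ N) (hle : modularFunctionFieldBar N ≤ modularFunctionFieldBar (N * p)) :
    letI := (IntermediateField.inclusion hle).toRingHom.toAlgebra
    Module.finrank ↥(modularFunctionFieldBar N) ↥(modularFunctionFieldBar (N * p)) = p + 1 :=
  finrank_bar_eq_of_psi (dvd_mul_right N p) hle
    (Fermat.Agent.S20.H77.dedekindPsi_mul_prime_of_not_dvd hp (NeZero.ne N) hpN)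

/-! ### The auxiliary level of the bridge -/

/-- The auxiliary level of the bridge: `lcm N 3` for `ℓ = 2`, `lcm N 2` for `ℓ = 3`, and `N` for
`ℓ ≥ 5`. -/
def bridgeLevel (N ℓ : ℕ) : ℕ :=
  if ℓ = 2 then Nat.lcm N 3 else if ℓ = 3 then Nat.lcm N 2 else N

theorem bridgeLevel_two (N : ℕ) : bridgeLevel N 2 = Nat.lcm N 3 := by simp [bridgeLevel]

theorem bridgeLevel_three (N : ℕ) : bridgeLevel N 3 = Nat.lcm N 2 := by simp [bridgeLevel]

theorem bridgeLevel_of_ne {N ℓ : ℕ} (h2 : ℓ ≠ 2) (h3 : ℓ ≠ 3) : bridgeLevel N ℓ = N := by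
  simp [bridgeLevel, h2, h3]

theorem dvd_bridgeLevel (N ℓ : ℕ) : N ∣ bridgeLevel N ℓ := by
  unfold bridgeLevel
  split_ifs
  · exact Nat.dvd_lcm_left N 3
  · exact Nat.dvd_lcm_left N 2
  · exact dvd_rfl

theorem bridgeLevel_ne_zero {N : ℕ} (hN : N ≠ 0) (ℓ : ℕ) : bridgeLevel N ℓ ≠ 0 := by
  unfold bridgeLevel
  split_ifs
  · exact Nat.lcm_ne_zero hN (by norm_num)
  · exact Nat.lcm_ne_zero hN (by norm_num)
  · exact hN

theorem three_dvd_bridgeLevel_two (N : ℕ) : 3 ∣ bridgeLevel N 2 := by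
  rw [bridgeLevel_two]
  exact Nat.dvd_lcm_right N 3

theorem two_dvd_bridgeLevel_three (N : ℕ) : 2 ∣ bridgeLevel N 3 := by
  rw [bridgeLevel_three]
  exact Nat.dvd_lcm_right N 2

/-- `ℓ` does not divide the auxiliary level. -/
theorem not_dvd_bridgeLevel {N ℓ : ℕ} (hℓ : ℓ.Prime) (hℓN : ¬ ℓ ∣ N) : ¬ ℓ ∣ bridgeLevel N ℓ := by
  unfold bridgeLevel
  split_ifs with h2 h3
  · subst h2
    intro h
    have h6 : 2 ∣ N * 3 := h.trans (Nat.lcm_dvd_mul N 3)
    rcases (Nat.Prime.dvd_mul Nat.prime_two).mp h6 with h' | h'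
    · exact hℓN h'
    · omega
  · subst h3
    intro h
    have h6 : 3 ∣ N * 2 := h.trans (Nat.lcm_dvd_mul N 2)
    rcases (Nat.Prime.dvd_mul Nat.prime_three).mp h6 with h' | h'
    · exact hℓN h'
    · omega
  · exact hℓN

/-- `ψ` of the auxiliary level is `ψ(N)` times a power of `ℓ` (`1`, `3` or `4`). -/
theorem dedekindPsi_bridgeLevel {N : ℕ} (hN : N ≠ 0) (ℓ : ℕ) :
    ∃ k : ℕ, dedekindPsi (bridgeLevel N ℓ) = ℓ ^ k * dedekindPsi N := by
  unfold bridgeLevel
  split_ifs with h2 h3
  · subst h2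
    by_cases h : 3 ∣ N
    · exact ⟨0, by rw [Nat.lcm_eq_left h, pow_zero, one_mul]⟩
    · refine ⟨2, ?_⟩
      have hc : Nat.Coprime N 3 := ((Nat.Prime.coprime_iff_not_dvd Nat.prime_three).mpr h).symm
      rw [hc.lcm_eq_mul,
        Fermat.Agent.S20.H77.dedekindPsi_mul_prime_of_not_dvd Nat.prime_three hN h]
      norm_num
  · subst h3
    by_cases h : 2 ∣ N
    · exact ⟨0, by rw [Nat.lcm_eq_left h, pow_zero, one_mul]⟩
    · refine ⟨1, ?_⟩
      have hc : Nat.Coprime N 2 := ((Nat.Prime.coprime_iff_not_dvd Nat.prime_two).mpr h).symm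
      rw [hc.lcm_eq_mul,
        Fermat.Agent.S20.H77.dedekindPsi_mul_prime_of_not_dvd Nat.prime_two hN h]
      norm_num
  · exact ⟨0, by rw [pow_zero, one_mul]⟩

/-- **B6-index.**  For a prime `ℓ` and `m` prime to `ℓ`, the degree `[F_{N'} : F_N]` at the
auxiliary level `N' = bridgeLevel N ℓ` is prime to `m`, and `F_{N'} / F_N` is finite. -/
theorem index_facts (N : ℕ) [NeZero N] {ℓ : ℕ} (hℓ : ℓ.Prime) (m : ℕ) (hm : ¬ ℓ ∣ m)
    [NeZero (bridgeLevel N ℓ)]
    (hle : modularFunctionFieldBar N ≤ modularFunctionFieldBar (bridgeLevel N ℓ)) :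
    letI := (IntermediateField.inclusion hle).toRingHom.toAlgebra
    (Module.finrank ↥(modularFunctionFieldBar N)
        ↥(modularFunctionFieldBar (bridgeLevel N ℓ))).Coprime m ∧
      Module.Finite ↥(modularFunctionFieldBar N) ↥(modularFunctionFieldBar (bridgeLevel N ℓ)) := by
  obtain ⟨k, hk⟩ := dedekindPsi_bridgeLevel (NeZero.ne N) ℓ
  refine ⟨?_, finite_bar (dvd_bridgeLevel N ℓ) hle⟩
  rw [finrank_bar_eq_of_psi (dvd_bridgeLevel N ℓ) hle hk]
  exact Nat.Coprime.pow_left k ((Nat.Prime.coprime_iff_not_dvd hℓ).mpr hm)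

/-- **B6-index**, existential form (the shape of `exists_setup`): the auxiliary level, its
elementary properties, the inclusion `F_N ≤ F_{N'}`, coprimality of the degree and finiteness. -/
theorem exists_bridgeLevel (N : ℕ) [NeZero N] {ℓ : ℕ} (hℓ : ℓ.Prime) (hℓN : ¬ ℓ ∣ N) (m : ℕ)
    (hm : ¬ ℓ ∣ m) :
    ∃ (N' : ℕ) (_ : NeZero N') (hle : modularFunctionFieldBar N ≤ modularFunctionFieldBar N'),
      N' = bridgeLevel N ℓ ∧ N ∣ N' ∧ ¬ ℓ ∣ N' ∧ (ℓ = 2 → 3 ∣ N') ∧ (ℓ = 3 → 2 ∣ N') ∧
      (ℓ ≠ 2 → ℓ ≠ 3 → N' = N) ∧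
      (letI := (IntermediateField.inclusion hle).toRingHom.toAlgebra
       (Module.finrank ↥(modularFunctionFieldBar N) ↥(modularFunctionFieldBar N')).Coprime m ∧
        Module.Finite ↥(modularFunctionFieldBar N) ↥(modularFunctionFieldBar N')) := by
  have : NeZero (bridgeLevel N ℓ) := ⟨bridgeLevel_ne_zero (NeZero.ne N) ℓ⟩
  have hle := modularFunctionFieldBar_mono (dvd_bridgeLevel N ℓ)
  refine ⟨bridgeLevel N ℓ, inferInstance, hle, rfl, dvd_bridgeLevel N ℓ,
    not_dvd_bridgeLevel hℓ hℓN, ?_, ?_, fun h2 h3 => bridgeLevel_of_ne h2 h3,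
    index_facts N hℓ m hm hle⟩
  · rintro rfl
    exact three_dvd_bridgeLevel_two N
  · rintro rfl
    exact two_dvd_bridgeLevel_three N

end Fermat.Agent.S18.H55
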