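import Mathlib
import Fermat.Agent.S18.H74.TopDefs
import Fermat.Agent.S18.H55.Index

/-!
# S18 (bridge leaf B6): the index statement in the vocabulary of the skeleton

`index_algFN` / `exists_level` restate `H55.index_facts` / `H55.exists_bridgeLevel` with the
definitions `FN`, `algFN` of `Fermat.Agent.S18.H74.TopDefs`, i.e. exactly the clause

  `letI := algFN N N' hle; (Module.finrank (FN N) (FN N')).Coprime m ∧ Module.Finite (FN N) (FN N')`

of `exists_setup`, for the auxiliary level `N' = bridgeLevel N ℓ`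
(`lcm N 3` for `ℓ = 2`, `lcm N 2` for `ℓ = 3`, `N` otherwise).
-/

set_option autoImplicit false

open AlgebraicCurve IntermediateField ModularCurve

noncomputable section

namespace Fermat.Agent.S18.H55

open Fermat.Agent.S18.H74

/-- `[F_{N'} : F_N] * ψ(N) = ψ(N')` for `N ∣ N'`, with the skeleton's `algFN`. -/
theorem finrank_algFN_mul {N N' : ℕ} [NeZero N] [NeZero N'] (h : N ∣ N')
    (hle : modularFunctionFieldBar N ≤ modularFunctionFieldBar N') :
    letI := algFN N N' hle
    Module.finrank (FN N) (FN N') * dedekindPsi N = dedekindPsi N' :=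
  finrank_bar_mul h hle

/-- `F_{N'} / F_N` is finite for `N ∣ N'`, with the skeleton's `algFN`. -/
theorem finite_algFN {N N' : ℕ} [NeZero N] [NeZero N'] (h : N ∣ N')
    (hle : modularFunctionFieldBar N ≤ modularFunctionFieldBar N') :
    letI := algFN N N' hle
    Module.Finite (FN N) (FN N') :=
  finite_bar h hle

/-- The index clause of `exists_setup` at the auxiliary level `bridgeLevel N ℓ`. -/
theorem index_algFN (N : ℕ) [NeZero N] {ℓ : ℕ} (hℓ : ℓ.Prime) (m : ℕ) (hm : ¬ ℓ ∣ m)
    [NeZero (bridgeLevel N ℓ)]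
    (hle : modularFunctionFieldBar N ≤ modularFunctionFieldBar (bridgeLevel N ℓ)) :
    letI := algFN N (bridgeLevel N ℓ) hle
    (Module.finrank (FN N) (FN (bridgeLevel N ℓ))).Coprime m ∧
      Module.Finite (FN N) (FN (bridgeLevel N ℓ)) :=
  index_facts N hℓ m hm hle

/-- The auxiliary level with all its properties, in the shape of `exists_setup`. -/
theorem exists_level (N : ℕ) [NeZero N] {ℓ : ℕ} [Fact ℓ.Prime] (hℓN : ¬ ℓ ∣ N) (m : ℕ)
    (hm : ¬ ℓ ∣ m) :
    ∃ (N' : ℕ) (_ : NeZero N') (hle : modularFunctionFieldBar N ≤ modularFunctionFieldBar N'),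
      N' = bridgeLevel N ℓ ∧ N ∣ N' ∧ ¬ ℓ ∣ N' ∧ (ℓ = 2 → 3 ∣ N') ∧ (ℓ = 3 → 2 ∣ N') ∧
      (ℓ ≠ 2 → ℓ ≠ 3 → N' = N) ∧
      (letI := algFN N N' hle
       (Module.finrank (FN N) (FN N')).Coprime m ∧ Module.Finite (FN N) (FN N')) :=
  exists_bridgeLevel N Fact.out hℓN m hm

end Fermat.Agent.S18.H55
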